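import Fermat.Agent.RT.S59Interface
import Fermat.Agent.RT.LowerQ.AuxPrime
import Fermat.Agent.RT.LowerQ.Congruence
import Fermat.Agent.RT.Main.TraceDescent
import Fermat.Agent.LevelLowering.GlobalPlane
import Fermat.Agent.S35

/-!
# The auxiliary prime at `p = 3`

`exists_aux_prime`: a good prime `r ≡ 2 (mod 3)` outside a given set with `3 ∤ a_r`;
`descend_aux`: such a prime leaves the level, the trace being different from `± (r + 1)`.
-/

set_option autoImplicit false
set_option maxHeartbeats 800000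

noncomputable section

open WeierstrassCurve

open scoped WeierstrassCurve.Affine TensorProduct

namespace FLTA.RT.LowerPAux

open FLTA.LevelLowering (planeRep planeRep_frobenius)

local notation "Γℚ" => AlgebraicClosure ℚ ≃ₐ[ℚ] AlgebraicClosure ℚ

/-- The statement of S35. -/
theorem steinbergFrobenius : SteinbergFrobenius := by
  intro M _ g hg lam _ S O' _ _ _ _ _ _ h chig hchig iota h1 h2
  exact Fermat.Agent.S35.result hg lam S O' h chig hchig iota h1 h2

/-- An auxiliary prime `r ≡ 2 (mod 3)` with `a_r ≢ 0 (mod 3)`. -/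
theorem exists_aux_prime {W : WeierstrassCurve ℤ} (hW : LiftingCurve 3 W) {M : ℕ} (hM : M ≠ 0) :
    ∃ r : ℕ, r.Prime ∧ r % 3 = 2 ∧ r ≠ 2 ∧ ¬ r ∣ M ∧ W.IsGoodPrimeFor r ∧
      ¬ (3 : ℤ) ∣ W.apOfModel r := by
  obtain ⟨r, hr, hrS, hr2, hr3, hgood, har⟩ :=
    LowerQ.exists_aux_prime W hW.hΔ hW.semistable hW.irreducible M.primeFactors
  exact ⟨r, hr, hr3, hr2, fun h => hrS (Nat.mem_primeFactors.mpr ⟨hr, h, hM⟩), hgood, har⟩

/-- The auxiliary prime leaves the level. -/
theorem descend_aux {W : WeierstrassCurve ℤ} (hW : LiftingCurve 3 W) {M r : ℕ}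
    (hsq : Squarefree (M * r)) (hr : r.Prime) (hr3 : r % 3 = 2) (hr2 : r ≠ 2)
    (hgood : W.IsGoodPrimeFor r) (har : ¬ (3 : ℤ) ∣ W.apOfModel r)
    (hmod : W.IsResiduallyModularOfLevel 3 (M * r)) : W.IsResiduallyModularOfLevel 3 M := by
  haveI : Fact (Nat.Prime 3) := ⟨Nat.prime_three⟩
  have hr3' : r ≠ 3 := by omega
  have htr : ¬ TraceAtQ hW.hΔ 3 r := by
    intro htr
    obtain ⟨A, hA⟩ := FLTA.Galois.exists_liesOverPrime hr
    obtain ⟨σ, hσ⟩ := FLTA.Galois.exists_isFrobeniusAt hr hA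
    have h := htr A hA σ hσ
    rw [(planeRep_frobenius hW.hΔ (p := 3) (by norm_num) hr hr2 hgood hr3' hA hσ).1] at h
    have hq : (r : ZMod 3) + 1 = 0 := by
      rw [← Nat.cast_one, ← Nat.cast_add, ZMod.natCast_eq_zero_iff]
      omega
    rw [hq, zero_pow two_ne_zero, sq_eq_zero_iff, ZMod.intCast_zmod_eq_zero_iff_dvd] at h
    exact har (by exact_mod_cast h)
  obtain ⟨M', hM', hrM', hsys⟩ := exists_hasSystem_of_trace' (hΔ := hW.hΔ) steinbergFrobenius (by norm_num) hsq hr hr3'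
    (LowerQ.hasSystem_of_residual hW.hΔ hsq.ne_zero hmod) htr
  haveI : NeZero M := ⟨(Nat.squarefree_mul_iff.mp hsq).2.1.ne_zero⟩
  exact LowerQ.residual_of_hasSystem hW.hΔ (by norm_num)
    ((hr.coprime_iff_not_dvd.mpr hrM').symm.dvd_of_dvd_mul_right hM') hsys

end FLTA.RT.LowerPAux

end
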