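import Fermat.Agent.LevelLowering.Main
import Fermat.Agent.LevelLowering.CurveWeights
import Fermat.Agent.LevelLowering.GlobalCurve

/-!
# No `p`-new copy of `E[p]` at an ordinary place
-/

set_option autoImplicit false
set_option synthInstance.maxHeartbeats 400000
set_option maxHeartbeats 800000

noncomputable section

open AlgebraicCurve ModularCurve IsLocalRing WeierstrassCurve

namespace FLTA.RT.LowerPOrd

open FLTA.LevelLowering
open FLTA.EllReducible (Tors)

/-- At an ordinary or peu ramifié place `E[p]` cannot be `p`-new; at `p = 3` an auxiliary prime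
`r ≡ 2 (mod 3)` of the level is used. -/
theorem false_of_curveData {W : WeierstrassCurve ℤ} (hΔ : W.Δ ≠ 0) {p : ℕ} [hp : Fact p.Prime]
    (hp2 : p ≠ 2) (hloc : IsOrdinaryOrPeuMult W p) {N M : ℕ} [NeZero N] [NeZero M]
    (hNM : N = M * p) (hpM : ¬ p ∣ M)
    (haux : p = 3 → ∃ r : ℕ, r.Prime ∧ r % 3 = 2 ∧ r ∣ M)
    {S : Finset ℕ} (hpS : p ∈ S) (hlev : ∀ ℓ : ℕ, ℓ.Prime → ℓ ∣ N → ℓ ∈ S)
    (D : CurveGlobalData W p N M S) : False := by
  subst hNM
  haveI : NeZero p := ⟨hp.out.ne_zero⟩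
  have hE : (W.map (Int.castRingHom ℚ)).Δ ≠ 0 := by
    rw [WeierstrassCurve.map_Δ]; simpa using hΔ
  obtain ⟨A, hA⟩ := FLTA.Galois.exists_liesOverPrime hp.out
  obtain ⟨L₀, V⟩ := exists_torsShape_curve W hΔ p hp2 hloc A hA
  haveI := FLTA.Galois.charP_residueField hp.out hA
  haveI := FLTA.Congruence.perfectRing_residueField hp.out hA
  haveI := FLTA.Galois.isAlgClosed_residueField A
  refine false_of_eigen_embedding_of_weights hE hp2 hpM hA V S hpS hlev
    (fun ℓ => W.apOfModel ℓ) D.iota D.iota_injective D.iota_smul D.hecke_iota D.t D.t_eval D.t_old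
    D.exists_not_eisenstein fun R _ _ _ Ed hG hFin => ?_
  by_cases h3 : p = 3
  · obtain ⟨r, hr, hr3, hrM⟩ := haux h3
    haveI : NeZero r := ⟨hr.ne_zero⟩
    exact exists_weights_three (isModularFibre_badFibre M p A hA hpM) hpM h3 hr3 hrM R Ed hG hFin
  · refine nonempty_weights_of_five_le ?_ Ed
    have h2 := hp.out.two_le
    have h4 : p ≠ 4 := fun h => absurd (h ▸ hp.out) (by norm_num)
    omega

end FLTA.RT.LowerPOrd

end
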