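import Fermat.Agent.LevelLowering.ToricCyclo
import Fermat.Agent.LevelLowering.MainEnd
import Fermat.Agent.LevelLowering.GlobalCurve
import Fermat.Agent.LevelLowering.LocalCurveHasse
import Fermat.Agent.BadRed.Galois
import Fermat.Agent.BadRed.Endgame.Degeneracy
import Fermat.Agent.RT.ImageTorsion
import Fermat.Agent.EllTorsion.FrobReduce

/-!
# No `p`-new copy of `E[p]` at a supersingular place

The commutator classes `σ x - x` of a copy killed by both degeneracy maps are toric, so inertia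
acts on them by the cyclotomic character, whose `(p - 1)`-th power is trivial; but no `(p - 1)`-th
power of inertia fixes all non-zero `p`-torsion points in the supersingular case.
-/

set_option autoImplicit false
set_option synthInstance.maxHeartbeats 400000
set_option maxHeartbeats 800000

noncomputable section

open scoped Classical
open AlgebraicCurve ModularCurve IsLocalRing WeierstrassCurve FLTA.BadRed

open scoped WeierstrassCurve.Affine

namespace FLTA.RT.LowerPSS

open FLTA.LevelLowering FLTA.EllReduction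
open FLTA.EllReducible (Tors)

section Reduction

variable {W : WeierstrassCurve ℤ} {p : ℕ} [hp : Fact p.Prime]

/-- A supersingular reduction has no point of order `p`. -/
theorem eq_zero_of_nsmul {k : Type*} [Field k] [CharP k p] [DecidableEq k] [IsAlgClosed k]
    (hp2 : p ≠ 2) (hgood : W.IsGoodPrimeFor p) (hss : (p : ℤ) ∣ W.apOfModel p)
    {P : (W⁄k).Point} (hP : p • P = 0) : P = 0 := by
  have : (W⁄k).IsElliptic := FLTA.EllTorsion.Frob.isElliptic_of_good W p k hgood
  set Φ := FLTA.EllTorsion.Frob.frobHom W p k with hΦ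
  obtain ⟨R, hR⟩ := EllTorsion.exists_zsmul_eq (W := (W⁄k)) (n := 2) (by norm_num) P
  have hquad := FLTA.EllTorsion.Frob.two_zsmul_frobenius_quadratic W p k hp2 hgood R
  rw [smul_add, smul_sub, smul_comm (2 : ℤ), smul_comm (2 : ℤ) (p : ℤ), ← map_zsmul, ← map_zsmul,
    hR, natCast_zsmul, hP, add_zero] at hquad
  obtain ⟨c, hc⟩ := hss
  rw [hc, mul_comm, mul_zsmul, natCast_zsmul, ← map_nsmul, hP, map_zero, zsmul_zero,
    sub_zero] at hquad
  have hinj : Function.Injective Φ :=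
    WeierstrassCurve.Affine.Point.map_injective (f := (frobenius k p).toIntAlgHom)
  exact hinj (hinj (hquad.trans (by rw [map_zero, map_zero])))

/-- At a supersingular place all of `E[p]` is in the kernel of reduction. -/
theorem mem_E1Z (hp2 : p ≠ 2) (hgood : W.IsGoodPrimeFor p) (hss : (p : ℤ) ∣ W.apOfModel p)
    {A : ValuationSubring (AlgebraicClosure ℚ)} (hA : A.LiesOverPrime p) {P : GeomPoint W}
    (hP : p • P = 0) : P ∈ E1Z W A := by
  haveI := FLTA.Galois.charP_residueField hp.out hA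
  haveI := FLTA.Galois.isAlgClosed_residueField A
  have h0 : InE0 A (geomCurve W) P := FLTA.EllTorsion.FrobReduce.inE0_geom hp.out hA hgood P
  let P' : E0 (geomCurve_integralAt W A) := ⟨P, h0⟩
  have key : ∀ (V : WeierstrassCurve (ResidueField A)), V = W⁄(ResidueField A) →
      ∀ Q : V.toAffine.Point, p • Q = 0 → Q = 0 := by
    rintro _ rfl Q hQ
    exact eq_zero_of_nsmul hp2 hgood hss hQ
  exact (red_eq_zero_iff _ P').mp (key _ (FLTA.EllTorsion.FrobReduce.reducedCurve_eq_baseChange W A) _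
    (by rw [← map_nsmul, show p • P' = 0 from Subtype.ext hP, map_zero]))

end Reduction

section Old

variable {p M : ℕ} [hp : Fact p.Prime] [NeZero p] [NeZero M] {S : Finset ℕ}

/-- A separating polynomial sends an eigenclass to zero at the lower level. -/
theorem push_eq_zero (hpS : p ∈ S) (hlev : ∀ ℓ : ℕ, ℓ.Prime → ℓ ∣ M * p → ℓ ∈ S)
    {a : ℕ → ℤ} {x : JZero (M * p)} (hx : p • x = 0)
    (hT : ∀ ℓ : Nat.Primes, (ℓ : ℕ) ∉ S → heckeOperatorBar (M * p) ℓ x = a ℓ • x)
    {t : FreeAlgebra ℤ {ℓ : Nat.Primes // (ℓ : ℕ) ∉ S}}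
    (ht1 : heckeLiftMod p a S t = 1) (ht0 : heckeLiftBar M S t = 0)
    (P : JZero (M * p) →+ JZero M)
    (hP : ∀ (σ : AlgebraicClosure ℚ ≃ₐ[ℚ] AlgebraicClosure ℚ) (y : JZero (M * p)),
      P (σ • y) = σ • P y) : P x = 0 := by
  have hPx : p • P x = 0 := by rw [← map_nsmul, hx, map_zero]
  have hc : ∀ ℓ : {ℓ : Nat.Primes // (ℓ : ℕ) ∉ S},
      heckeOperatorBar M ℓ.1 (P x) = a ℓ.1 • P x := by
    intro ℓ
    have hℓp : ¬ (ℓ.1 : ℕ) ∣ p := fun h =>
      ℓ.2 (((Nat.prime_dvd_prime_iff_eq ℓ.1.2 hp.out).mp h) ▸ hpS)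
    have hℓN : ¬ (ℓ.1 : ℕ) ∣ M * p := fun h => ℓ.2 (hlev _ ℓ.1.2 h)
    have h := FLTA.BadRed.hecke_comm_of_galois P hP ℓ.1.2 hℓN
      (fun h' => hℓN (h'.mul_right p)) hℓp hx
    exact h.symm.trans ((congrArg P (hT ℓ.1 ℓ.2)).trans (map_zsmul P _ _))
  have hz : ∀ s, ∃ c : ℤ, (c : ZMod p) = heckeLiftMod p a S s ∧
      heckeLiftBar M S s (P x) = c • P x := by
    intro s
    induction s using FreeAlgebra.induction with
    | grade0 r => exact ⟨r, by simp, by simp [Module.End.intCast_apply]⟩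
    | grade1 ℓ => exact ⟨a ℓ.1, by simp [heckeLiftMod], by
        rw [heckeLiftBar, FreeAlgebra.lift_ι_apply]; exact hc ℓ⟩
    | mul u v hu hv =>
      obtain ⟨c, hc1, hc2⟩ := hu
      obtain ⟨d, hd1, hd2⟩ := hv
      exact ⟨c * d, by rw [Int.cast_mul, hc1, hd1, map_mul], by
        rw [map_mul, Module.End.mul_apply, hd2, map_zsmul, hc2, smul_smul, mul_comm]⟩
    | add u v hu hv =>
      obtain ⟨c, hc1, hc2⟩ := hu
      obtain ⟨d, hd1, hd2⟩ := hv
      exact ⟨c + d, by rw [Int.cast_add, hc1, hd1, map_add], by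
        rw [map_add, LinearMap.add_apply, hc2, hd2]; exact (add_zsmul _ _ _).symm⟩
  obtain ⟨c, hc1, hc2⟩ := hz t
  rw [ht0, LinearMap.zero_apply] at hc2
  obtain ⟨d, hd⟩ : (p : ℤ) ∣ c - 1 := by
    rw [← ZMod.intCast_zmod_eq_zero_iff_dvd, Int.cast_sub, hc1, ht1, Int.cast_one, sub_self]
  rw [show c = d * (p : ℤ) + 1 by linarith, add_zsmul, one_zsmul, mul_zsmul, natCast_zsmul, hPx,
    zsmul_zero, zero_add] at hc2
  exact hc2.symm

end Old

/-- At a supersingular place `E[p]` cannot be `p`-new. -/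
theorem false_of_curveData {W : WeierstrassCurve ℤ} (hΔ : W.Δ ≠ 0) {p : ℕ} [hp : Fact p.Prime]
    (hp2 : p ≠ 2) (hgood : W.IsGoodPrimeFor p) (hss : (p : ℤ) ∣ W.apOfModel p) {N M : ℕ}
    [NeZero N] [NeZero M] (hNM : N = M * p) (hpM : ¬ p ∣ M)
    {S : Finset ℕ} (hpS : p ∈ S) (hlev : ∀ ℓ : ℕ, ℓ.Prime → ℓ ∣ N → ℓ ∈ S)
    (D : CurveGlobalData W p N M S) : False := by
  subst hNM
  haveI : NeZero p := ⟨hp.out.ne_zero⟩
  obtain ⟨A, hA⟩ := FLTA.Galois.exists_liesOverPrime hp.out
  haveI := FLTA.Galois.charP_residueField hp.out hA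
  haveI := FLTA.Galois.isAlgClosed_residueField A
  haveI := FLTA.Congruence.perfectRing_residueField hp.out hA
  set B := badFibre M p A hA hpM with hB
  let I := fibreInertia M p A hA hpM
  obtain ⟨S₀, m₀, hS₀⟩ := B.exists_isGluing
  have hne := isGluing_nonempty hA hpM hS₀
  have hE : (W.map (Int.castRingHom ℚ)).Δ ≠ 0 := by
    rw [WeierstrassCurve.map_Δ]; simpa using hΔ
  haveI : Finite (Tors (W.map (Int.castRingHom ℚ)) p) := FLTA.EllReducible.finite_tors _ hE hp.out
  have hkill : ∀ x, p • D.iota x = 0 := fun x => by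
    rw [← map_nsmul]
    convert map_zero D.iota using 2
    rw [← Nat.cast_smul_eq_nsmul (ZMod p), ZMod.natCast_self, zero_smul]
  have hpush : ∀ x, Carayol.pushAlpha M p (D.iota x) = 0 ∧ Carayol.pushBeta M p (D.iota x) = 0 :=
    fun x => ⟨push_eq_zero hpS hlev (hkill x) (fun ℓ hℓ => D.hecke_iota ℓ hℓ x) D.t_eval D.t_old
        _ (Carayol.pushAlpha_galois M p),
      push_eq_zero hpS hlev (hkill x) (fun ℓ hℓ => D.hecke_iota ℓ hℓ x) D.t_eval D.t_old
        _ (Carayol.pushBeta_galois M p)⟩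
  have hnorms : ∀ x, B.NormsTrivial p (D.iota x) := fun x => by
    obtain ⟨hα, hβ⟩ := hpush x
    obtain ⟨Dv, hDv⟩ := Pic0.mk_surjective (D.iota x)
    rw [← hDv] at hα hβ ⊢
    rw [Carayol.pushAlpha, Carayol.pushPic_mk_eq_zero_iff] at hα
    rw [Carayol.pushBeta, Carayol.pushPic_mk_eq_zero_iff] at hβ
    exact B.normsTrivial_of_pushforward (Curves.isIntegral_of_algHom _)
      (Curves.isIntegral_of_algHom _) (Curves.finiteAlong _)
      (Curves.normFormulaAlong _ _ (Curves.separableAlong_of_charZero _))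
      (Curves.normFormulaAlong _ _ (Curves.separableAlong_of_charZero _))
      (by rw [hDv]; exact hkill x) hα
      (pushforwardAlong_mem_principal_congr (swapBar_alpha M p hpM) _ _ hβ)
  have hcyc : ∀ γ ∈ A.inertiaSubgroupIn ℚ, ∀ σ ∈ A.inertiaSubgroupIn ℚ,
      ∀ x : Tors (W.map (Int.castRingHom ℚ)) p,
        γ • (σ • x - x) = ExtCitation.cycloExp p γ • (σ • x - x) := by
    intro γ hγ σ hσ x
    have htor : B.IsToric p (D.iota (σ • x - x)) := by
      have h := B.isToric_inertia_smul_sub (n := p) (I.sy ⟨σ, hσ⟩) (I.inertia _) (hkill x)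
      rwa [fibreInertia_smul, ← D.iota_smul, ← map_sub] at h
    refine D.iota_injective ?_
    rw [D.iota_smul, map_nsmul]
    have h := Removal.toric_inertia_cyclo I hA hp2 hS₀ hne (hkill _) htor (hnorms _) ⟨γ, hγ⟩
    rwa [fibreInertia_smul] at h
  have hall : ∀ P : GeomPoint W, p • P = 0 → P ∈ E1Z W A := fun P hP =>
    mem_E1Z hp2 hgood hss hA hP
  have h3 : 3 ≤ p := by have := hp.out.two_le; omega
  have h1 : 1 < p ^ 2 - 1 := by
    have : 9 ≤ p ^ 2 := by nlinarith
    omega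
  have hm : p - 1 < p ^ 2 - 1 := by
    have : p < p ^ 2 := by nlinarith
    omega
  have hnp : ∀ x : Tors (W.map (Int.castRingHom ℚ)) p, p • (x.1 : GeomPoint W) = 0 :=
    fun x => FLTA.EllReducible.nsmul_coe_eq_zero x
  obtain ⟨x, hx⟩ : ∃ x : Tors (W.map (Int.castRingHom ℚ)) p, x ≠ 0 := by
    haveI : Nontrivial (Tors (W.map (Int.castRingHom ℚ)) p) :=
      Module.nontrivial_of_finrank_eq_succ (R := ZMod p) (n := 1)
        (FLTA.EllReducible.finrank_tors _ hE)
    exact exists_ne 0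
  obtain ⟨σ, hσ, hσx⟩ := exists_smul_pow_ne hΔ hp.out hp2 hA hall one_pos h1 (hnp x)
    (fun h => hx (Subtype.ext h))
  rw [pow_one] at hσx
  have hy : σ • x - x ≠ 0 := fun h => hσx (congrArg Subtype.val (sub_eq_zero.mp h))
  obtain ⟨γ, hγ, hγy⟩ := exists_smul_pow_ne hΔ hp.out hp2 hA hall (by omega) hm
    (hnp (σ • x - x)) (fun h => hy (Subtype.ext h))
  set y := σ • x - x with hydef
  set c : ℕ := ExtCitation.cycloExp p γ with hcdef
  have hcy : γ • y = c • y := hcyc γ hγ σ hσ x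
  have hc0 : (c : ZMod p) ≠ 0 := by
    intro h
    have : γ • y = 0 := by rw [hcy, ← Nat.cast_smul_eq_nsmul (ZMod p), h, zero_smul]
    exact hy (MulAction.injective γ (this.trans (smul_zero γ).symm))
  have hpow : ∀ j : ℕ, γ ^ j • y = ((c : ZMod p) ^ j) • y := by
    intro j
    induction j with
    | zero => rw [pow_zero, pow_zero, one_smul, one_smul]
    | succ j ih =>
      rw [pow_succ', mul_smul, ih, ← ZMod.natCast_zmod_val ((c : ZMod p) ^ j),
        Nat.cast_smul_eq_nsmul, smul_comm, hcy, ← Nat.cast_smul_eq_nsmul (ZMod p),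
        ← Nat.cast_smul_eq_nsmul (ZMod p), smul_smul, ZMod.natCast_zmod_val, pow_succ]
  have h := hpow (p - 1)
  rw [ZMod.pow_card_sub_one_eq_one hc0, one_smul] at h
  exact hγy (congrArg Subtype.val h)

end FLTA.RT.LowerPSS

end
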